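import Mathlib
import Fermat.Agent.LT.T3.Spec

/-!
# Row LT, tower T3, sub-leaf T3.12 `ConstTermC` (helper237) -- OFF-MAIN

* `constTerm237 : InLocCompC K → InLatticeC K → InFundDomC K → HaarScaleC K → ConstTermC K`
  = the field `Leaves.constTerm` of `LT/T3/Spec.lean` v2, VERBATIM;
* `constTermC_of237 : InLocCompC K → InLatticeC K → ConstTermC K` (the last two hypotheses are
  not used);
* `haarScaleC_of237 : InLocCompC K → InLatticeC K → InFundDomC K → HaarScaleC K`
  = the INPUT `T3In.haarScale` (product formula in measure form) PROVED from the other inputs.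

For a bounded continuous automorphic `ψ` the constant term
`Ψ(g) = ∫_D ψ(n(x) g) dμ'(x)` over a fundamental domain `D` of `K` in `𝔸_K` is continuous, left
invariant under `N(𝔸_K)` and under the rational torus elements `diag(α, 1)`, and the constant term
of `R(f)ψ` is `R(f)Ψ` (Fubini).

By-products (interface facts asked for by the memo of tower T3, sec. 4):
* `measure_fundDom_lt_top237` : cocompactness of `K` gives `μ'(D) < ∞`;
* `measurePreserving_mulK237` : PRODUCT FORMULA in measure form, `x ↦ α x` (`α ∈ Kˣ`) preserves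
  every Haar measure of `𝔸_K` (from cocompactness and ONE fundamental domain; no module, no
  local computation);
* `setIntegral_add_right237`, `setIntegral_mulK237` : the integral of a `K`-periodic function
  over a fundamental domain is invariant under translations and under `x ↦ α⁻¹ x`.

Spec files: `LT/T3/Spec.lean` v2 (helper14@0239b9a63, sha256 44de320b…), `LT/H556/A0.lean`
(helper556@0fa0be5a0), byte-identical copies.
-/

set_option autoImplicit false
set_option linter.unusedSectionVars false
set_option linter.style.haveILetI false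
open IsDedekindDomain NumberField MeasureTheory
open Fermat.Agent.LT.H556.A0
open scoped Pointwise

noncomputable section
namespace Fermat.Agent.LT.T3.H237

variable (K : Type) [Field K] [NumberField K]

/-- A number field is countable. -/
theorem countable_numberField237 : Countable K := by
  have : Module.Finite ℚ K := inferInstance
  let b := Module.finBasis ℚ K
  exact b.equivFun.toEquiv.injective.countable

/-- The principal adeles (group of `A0.IsCuspidalFn`). -/
abbrev princ237 : AddSubgroup (Adl K) := (algebraMap K (Adl K)).toAddMonoidHom.range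

instance countable_princ237 : Countable (princ237 K) := by
  have := countable_numberField237 K
  have : Function.Surjective (fun ξ : K => (⟨algebraMap K (Adl K) ξ, ⟨ξ, rfl⟩⟩ : princ237 K)) := by
    rintro ⟨x, ξ, rfl⟩
    exact ⟨ξ, rfl⟩
  exact this.countable

section GLpart

/-- The rational unipotent `n(ξ)`. -/
def nK237 (ξ : K) : GL (Fin 2) K :=
  ⟨!![1, ξ; 0, 1], !![1, -ξ; 0, 1],
    by ext i j; fin_cases i <;> fin_cases j <;> simp [Matrix.mul_apply, Fin.sum_univ_two],
    by ext i j; fin_cases i <;> fin_cases j <;> simp [Matrix.mul_apply, Fin.sum_univ_two]⟩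

/-- The rational torus element `diag(α, 1)`. -/
def tK237 (α : Kˣ) : GL (Fin 2) K :=
  ⟨!![(α : K), 0; 0, 1], !![((α⁻¹ : Kˣ) : K), 0; 0, 1],
    by ext i j; fin_cases i <;> fin_cases j <;> simp [Matrix.mul_apply, Fin.sum_univ_two],
    by ext i j; fin_cases i <;> fin_cases j <;> simp [Matrix.mul_apply, Fin.sum_univ_two]⟩

theorem unip_emb237 (ξ : K) :
    unip K (algebraMap K (Adl K) ξ)
      = Matrix.GeneralLinearGroup.map (algebraMap K (Adl K)) (nK237 K ξ) := by
  apply Units.ext
  ext i j
  fin_cases i <;> fin_cases j <;> simp [unip, nK237, Matrix.GeneralLinearGroup.map]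

theorem torK_eq237 (α : Kˣ) :
    torK K α = Matrix.GeneralLinearGroup.map (algebraMap K (Adl K)) (tK237 K α) := by
  apply Units.ext
  ext i j
  fin_cases i <;> fin_cases j <;> simp [torK, tK237, Matrix.GeneralLinearGroup.map]

theorem unip_add237 (x y : Adl K) : unip K (x + y) = unip K x * unip K y := by
  apply Units.ext
  ext i j
  fin_cases i <;> fin_cases j <;>
    simp [unip, Matrix.mul_apply, Fin.sum_univ_two, add_comm]

theorem unip_mul_torK237 (x : Adl K) (α : Kˣ) :
    unip K x * torK K α
      = torK K α * unip K (algebraMap K (Adl K) ((α⁻¹ : Kˣ) : K) * x) := by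
  apply Units.ext
  ext i j
  fin_cases i <;> fin_cases j <;>
    simp [unip, torK, Matrix.mul_apply, Fin.sum_univ_two, ← mul_assoc, ← map_mul]

theorem continuous_unip237 : Continuous (unip K) := by
  rw [Units.continuous_iff]
  constructor
  · change Continuous fun x : Adl K => (!![1, x; 0, 1] : Matrix (Fin 2) (Fin 2) (Adl K))
    refine continuous_matrix ?_
    intro i j
    fin_cases i <;> fin_cases j <;> simp <;> fun_prop
  · change Continuous fun x : Adl K => (!![1, -x; 0, 1] : Matrix (Fin 2) (Fin 2) (Adl K))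
    refine continuous_matrix ?_
    intro i j
    fin_cases i <;> fin_cases j <;> simp <;> fun_prop

end GLpart

section Meas

variable [MeasurableSpace (Adl K)] [BorelSpace (Adl K)]

/-- Cocompactness gives finite covolume. -/
theorem measure_fundDom_lt_top237 (μ' : Measure (Adl K)) [μ'.IsAddHaarMeasure]
    (hcoc : ∃ C : Set (Adl K), IsCompact C ∧ ∀ x : Adl K, ∃ ξ : K, x - algebraMap K (Adl K) ξ ∈ C)
    (D : Set (Adl K)) (hD : IsAddFundamentalDomain (princ237 K) D μ') : μ' D < ⊤ := by
  obtain ⟨C, hC, hcov⟩ := hcoc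
  have h1 : μ' C = ∑' g : princ237 K, μ' ((g +ᵥ C) ∩ D) := hD.measure_eq_tsum C
  have h2 : D ⊆ ⋃ g : princ237 K, (g +ᵥ C) ∩ D := by
    intro x hx
    obtain ⟨ξ, hξ⟩ := hcov x
    refine Set.mem_iUnion.2 ⟨⟨algebraMap K (Adl K) ξ, ⟨ξ, rfl⟩⟩, ?_, hx⟩
    refine ⟨x - algebraMap K (Adl K) ξ, hξ, ?_⟩
    change algebraMap K (Adl K) ξ + (x - algebraMap K (Adl K) ξ) = x
    abel
  calc μ' D ≤ μ' (⋃ g : princ237 K, (g +ᵥ C) ∩ D) := measure_mono h2
    _ ≤ ∑' g : princ237 K, μ' ((g +ᵥ C) ∩ D) := measure_iUnion_le _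
    _ = μ' C := h1.symm
    _ < ⊤ := hC.measure_lt_top

/-- The principal idele of `α ∈ Kˣ`. -/
def ratU237 (α : Kˣ) : (Adl K)ˣ := Units.map (algebraMap K (Adl K)).toMonoidHom α

@[simp] theorem ratU237_val (α : Kˣ) : ((ratU237 K α : (Adl K)ˣ) : Adl K) = algebraMap K (Adl K) α :=
  rfl

/-- Multiplication by `α ∈ Kˣ` on the adeles. -/
def mulK237 (α : Kˣ) : Adl K ≃ₜ+ Adl K := ContinuousAddEquiv.mulLeft (ratU237 K α)

@[simp] theorem mulK237_apply (α : Kˣ) (x : Adl K) :
    mulK237 K α x = algebraMap K (Adl K) α * x := rfl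

theorem mulK237_symm_apply (α : Kˣ) (x : Adl K) :
    (mulK237 K α).symm x = algebraMap K (Adl K) ((α⁻¹ : Kˣ) : K) * x := rfl

/-- The preimage of a fundamental domain under multiplication by `α ∈ Kˣ` is a fundamental
domain, as soon as the multiplication is quasi measure preserving. -/
theorem isFund_preimage_mulK237 (μ' : Measure (Adl K))
    (α : Kˣ) (hq : Measure.QuasiMeasurePreserving (mulK237 K α) μ' μ')
    (D : Set (Adl K)) (hD : IsAddFundamentalDomain (princ237 K) D μ') :
    IsAddFundamentalDomain (princ237 K) ((mulK237 K α) ⁻¹' D) μ' := by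
  -- the group automorphism `g ↦ α g` of the principal adeles
  let e : princ237 K → princ237 K := fun g =>
    ⟨algebraMap K (Adl K) ((α⁻¹ : Kˣ) : K) * (g : Adl K), by
      obtain ⟨x, ξ, rfl⟩ := g
      exact ⟨((α⁻¹ : Kˣ) : K) * ξ, by simp⟩⟩
  let e' : princ237 K → princ237 K := fun g =>
    ⟨algebraMap K (Adl K) (α : K) * (g : Adl K), by
      obtain ⟨x, ξ, rfl⟩ := g
      exact ⟨(α : K) * ξ, by simp⟩⟩
  have he : Function.Bijective e := by
    refine Function.bijective_iff_has_inverse.2 ⟨e', ?_, ?_⟩
    · intro g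
      apply Subtype.ext
      simp only [e, e']
      rw [← mul_assoc, ← map_mul]
      simp
    · intro g
      apply Subtype.ext
      simp only [e, e']
      rw [← mul_assoc, ← map_mul]
      simp
  refine hD.preimage_of_equiv hq (e := e) he ?_
  intro g x
  change mulK237 K α (e g +ᵥ x) = g +ᵥ mulK237 K α x
  simp only [mulK237_apply, e]
  change algebraMap K (Adl K) α * (algebraMap K (Adl K) ((α⁻¹ : Kˣ) : K) * (g : Adl K) + x)
    = (g : Adl K) + algebraMap K (Adl K) α * x
  rw [mul_add, ← mul_assoc, ← map_mul]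
  simp

/-- **Product formula, measure form.**  Multiplication by `α ∈ Kˣ` preserves every Haar measure
of the adeles, as soon as `K` is cocompact and has a fundamental domain. -/
theorem measurePreserving_mulK237 [LocallyCompactSpace (Adl K)] [SecondCountableTopology (Adl K)]
    (μ' : Measure (Adl K)) [μ'.IsAddHaarMeasure]
    (hcoc : ∃ C : Set (Adl K), IsCompact C ∧ ∀ x : Adl K, ∃ ξ : K, x - algebraMap K (Adl K) ξ ∈ C)
    (D : Set (Adl K)) (hD : IsAddFundamentalDomain (princ237 K) D μ') (α : Kˣ) :
    MeasurePreserving (mulK237 K α) μ' μ' := by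
  have hmeas : Measurable (mulK237 K α) := (mulK237 K α).continuous.measurable
  haveI : (μ'.map (mulK237 K α)).IsAddHaarMeasure := (mulK237 K α).isAddHaarMeasure_map μ'
  have hsm : μ'.map (mulK237 K α)
      = Measure.addHaarScalarFactor (μ'.map (mulK237 K α)) μ' • μ' :=
    Measure.isAddLeftInvariant_eq_smul (μ'.map (mulK237 K α)) μ'
  have hq : Measure.QuasiMeasurePreserving (mulK237 K α) μ' μ' := by
    refine ⟨hmeas, ?_⟩
    rw [hsm]
    exact Measure.smul_absolutelyContinuous
  have hfd := isFund_preimage_mulK237 K μ' α hq D hD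
  have h1 : μ' ((mulK237 K α) ⁻¹' D) = μ' D := hfd.measure_eq hD
  have h2 : μ'.map (mulK237 K α) D = μ' ((mulK237 K α) ⁻¹' D) :=
    (mulK237 K α).toHomeomorph.toMeasurableEquiv.map_apply D
  have hpos : μ' D ≠ 0 := hD.measure_ne_zero (NeZero.ne μ')
  have hfin : μ' D ≠ ⊤ := (measure_fundDom_lt_top237 K μ' hcoc D hD).ne
  have h3 : ((Measure.addHaarScalarFactor (μ'.map (mulK237 K α)) μ' : NNReal) : ENNReal) * μ' D
      = 1 * μ' D := by
    rw [one_mul]
    conv_rhs => rw [← h1, ← h2, hsm]
    simp [Measure.smul_apply]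
  have hc : ((Measure.addHaarScalarFactor (μ'.map (mulK237 K α)) μ' : NNReal) : ENNReal) = 1 :=
    (ENNReal.mul_left_inj hpos hfin).1 h3
  refine ⟨hmeas, ?_⟩
  rw [hsm]
  have : Measure.addHaarScalarFactor (μ'.map (mulK237 K α)) μ' = 1 := by
    exact_mod_cast hc
  rw [this, one_smul]

/-- `φ` is `K`-periodic. -/
def IsPer237 (φ : Adl K → ℂ) : Prop :=
  ∀ (ξ : K) (x : Adl K), φ (x + algebraMap K (Adl K) ξ) = φ x

/-- Integral of a periodic function over a fundamental domain, composed with a measure
preserving equivalence which maps fundamental domains to fundamental domains. -/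
theorem setIntegral_comp_equiv237 (μ' : Measure (Adl K)) [μ'.IsAddHaarMeasure]
    (D : Set (Adl K)) (hD : IsAddFundamentalDomain (princ237 K) D μ')
    (T : Adl K ≃ᵐ Adl K) (hT : MeasurePreserving T μ' μ')
    (hfd : IsAddFundamentalDomain (princ237 K) (T.symm ⁻¹' D) μ')
    (φ : Adl K → ℂ) (hφ : IsPer237 K φ) :
    ∫ x in D, φ (T x) ∂μ' = ∫ x in D, φ x ∂μ' := by
  have h := hT.setIntegral_preimage_emb T.measurableEmbedding φ (T.symm ⁻¹' D)
  have hpre : T ⁻¹' (T.symm ⁻¹' D) = D := by
    ext x
    simp
  rw [hpre] at h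
  rw [h]
  refine hfd.setIntegral_eq hD ?_
  rintro ⟨g, ξ, rfl⟩ x
  change φ (algebraMap K (Adl K) ξ + x) = φ x
  rw [add_comm]
  exact hφ ξ x

/-- Translation invariance of the integral of a periodic function over a fundamental domain. -/
theorem setIntegral_add_right237 (μ' : Measure (Adl K)) [μ'.IsAddHaarMeasure]
    (D : Set (Adl K)) (hD : IsAddFundamentalDomain (princ237 K) D μ')
    (φ : Adl K → ℂ) (hφ : IsPer237 K φ) (y : Adl K) :
    ∫ x in D, φ (x + y) ∂μ' = ∫ x in D, φ x ∂μ' := by
  have hT : MeasurePreserving (MeasurableEquiv.addRight y) μ' μ' :=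
    measurePreserving_add_right μ' y
  have hTs : MeasurePreserving (MeasurableEquiv.addRight y).symm μ' μ' := hT.symm
  have hfd : IsAddFundamentalDomain (princ237 K) ((MeasurableEquiv.addRight y).symm ⁻¹' D) μ' := by
    refine hD.preimage_of_equiv hTs.quasiMeasurePreserving (e := id) Function.bijective_id ?_
    intro g x
    change (MeasurableEquiv.addRight y).symm (g +ᵥ x) = g +ᵥ (MeasurableEquiv.addRight y).symm x
    simp only [MeasurableEquiv.symm_addRight, MeasurableEquiv.coe_addRight]
    change ((g : Adl K) + x) + -y = (g : Adl K) + (x + -y)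
    abel
  exact setIntegral_comp_equiv237 K μ' D hD (MeasurableEquiv.addRight y) hT hfd φ hφ

/-- Invariance under `x ↦ α⁻¹ x`, `α ∈ Kˣ`, of the integral of a periodic function over a
fundamental domain. -/
theorem setIntegral_mulK237 [LocallyCompactSpace (Adl K)] [SecondCountableTopology (Adl K)]
    (μ' : Measure (Adl K)) [μ'.IsAddHaarMeasure]
    (hcoc : ∃ C : Set (Adl K), IsCompact C ∧ ∀ x : Adl K, ∃ ξ : K, x - algebraMap K (Adl K) ξ ∈ C)
    (D : Set (Adl K)) (hD : IsAddFundamentalDomain (princ237 K) D μ')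
    (φ : Adl K → ℂ) (hφ : IsPer237 K φ) (α : Kˣ) :
    ∫ x in D, φ (algebraMap K (Adl K) ((α⁻¹ : Kˣ) : K) * x) ∂μ' = ∫ x in D, φ x ∂μ' := by
  have hmp := measurePreserving_mulK237 K μ' hcoc D hD α
  let T : Adl K ≃ᵐ Adl K := (mulK237 K α).toHomeomorph.toMeasurableEquiv.symm
  have hT : MeasurePreserving T μ' μ' :=
    MeasurePreserving.symm (mulK237 K α).toHomeomorph.toMeasurableEquiv hmp
  have hfd : IsAddFundamentalDomain (princ237 K) (T.symm ⁻¹' D) μ' :=
    isFund_preimage_mulK237 K μ' α hmp.quasiMeasurePreserving D hD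
  exact setIntegral_comp_equiv237 K μ' D hD T hT hfd φ hφ

end Meas

section Main

variable [MeasurableSpace (Adl K)] [BorelSpace (Adl K)] [MeasurableSpace (G K)] [BorelSpace (G K)]
  [LocallyCompactSpace (Adl K)] [SecondCountableTopology (Adl K)]
  [LocallyCompactSpace (G K)] [SecondCountableTopology (G K)]

/-- The constant term leaf, with the topological facts as instances. -/
theorem constTerm_aux237
    (hcoc : ∃ C : Set (Adl K), IsCompact C ∧ ∀ x : Adl K, ∃ ξ : K, x - algebraMap K (Adl K) ξ ∈ C)
    (μ : Measure (G K)) [μ.IsHaarMeasure]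
    (f : G K → ℂ) (hf : Continuous f) (hfc : HasCompactSupport f)
    (ψ : G K → ℂ) (hψ : IsAutFn K ψ)
    (μ' : Measure (Adl K)) [μ'.IsAddHaarMeasure]
    (D : Set (Adl K)) (hD : IsAddFundamentalDomain (princ237 K) D μ') :
    ∃ Ψ : G K → ℂ, Continuous Ψ ∧ (∀ (x : Adl K) (g : G K), Ψ (unip K x * g) = Ψ g) ∧
      (∀ (α : Kˣ) (g : G K), Ψ (torK K α * g) = Ψ g) ∧
      ∀ g : G K, ∫ x in D, Rop K μ f ψ (unip K x * g) ∂μ' = Rop K μ f Ψ g := by
  obtain ⟨C, hC⟩ := hψ.bdd
  have hDfin : μ' D < ⊤ := measure_fundDom_lt_top237 K μ' hcoc D hD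
  haveI : IsFiniteMeasure (μ'.restrict D) := ⟨by simpa using hDfin⟩
  -- periodicity
  have hper : ∀ g : G K, IsPer237 K (fun x => ψ (unip K x * g)) := by
    intro g ξ x
    show ψ (unip K (x + algebraMap K (Adl K) ξ) * g) = ψ (unip K x * g)
    rw [add_comm, unip_add237, unip_emb237, mul_assoc]
    exact hψ.left_inv _ _
  refine ⟨fun g => ∫ x in D, ψ (unip K x * g) ∂μ', ?_, ?_, ?_, ?_⟩
  · -- continuity
    refine continuous_of_dominated (bound := fun _ => C) ?_ ?_ ?_ ?_
    · intro g
      exact (hψ.cont.comp ((continuous_unip237 K).mul continuous_const)).aestronglyMeasurable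
    · intro g
      exact Filter.Eventually.of_forall fun x => hC _
    · exact integrable_const _
    · exact Filter.Eventually.of_forall fun x =>
        hψ.cont.comp (continuous_const.mul continuous_id)
  · intro y g
    show ∫ x in D, ψ (unip K x * (unip K y * g)) ∂μ' = ∫ x in D, ψ (unip K x * g) ∂μ'
    have h := setIntegral_add_right237 K μ' D hD _ (hper g) y
    rw [← h]
    refine integral_congr_ae (Filter.Eventually.of_forall fun x => ?_)
    show ψ (unip K x * (unip K y * g)) = ψ (unip K (x + y) * g)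
    rw [unip_add237, mul_assoc]
  · intro α g
    show ∫ x in D, ψ (unip K x * (torK K α * g)) ∂μ' = ∫ x in D, ψ (unip K x * g) ∂μ'
    have h := setIntegral_mulK237 K μ' hcoc D hD _ (hper g) α
    rw [← h]
    refine integral_congr_ae (Filter.Eventually.of_forall fun x => ?_)
    show ψ (unip K x * (torK K α * g))
      = ψ (unip K (algebraMap K (Adl K) ((α⁻¹ : Kˣ) : K) * x) * g)
    rw [← mul_assoc, unip_mul_torK237, mul_assoc, torK_eq237]
    exact hψ.left_inv _ _
  · intro g
    unfold Rop
    have hfi : Integrable f μ := hf.integrable_of_hasCompactSupport hfc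
    have hb : Integrable (fun z : Adl K × G K => (fun _ : Adl K => C) z.1 * (fun h => ‖f h‖) z.2)
        ((μ'.restrict D).prod μ) :=
      Integrable.mul_prod (integrable_const C) hfi.norm
    have hcont : Continuous (Function.uncurry fun (x : Adl K) (h : G K) =>
        ψ (unip K x * g * h) * f h) := by
      refine Continuous.mul (hψ.cont.comp ?_) (hf.comp continuous_snd)
      exact (((continuous_unip237 K).comp continuous_fst).mul continuous_const).mul continuous_snd
    have hint : Integrable (Function.uncurry fun (x : Adl K) (h : G K) =>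
        ψ (unip K x * g * h) * f h) ((μ'.restrict D).prod μ) := by
      refine hb.mono' hcont.aestronglyMeasurable (Filter.Eventually.of_forall ?_)
      rintro ⟨x, h⟩
      show ‖ψ (unip K x * g * h) * f h‖ ≤ C * ‖f h‖
      rw [norm_mul]
      exact mul_le_mul_of_nonneg_right (hC _) (norm_nonneg _)
    rw [integral_integral_swap hint]
    refine integral_congr_ae (Filter.Eventually.of_forall fun h => ?_)
    show ∫ x in D, ψ (unip K x * g * h) * f h ∂μ'
      = (∫ x in D, ψ (unip K x * (g * h)) ∂μ') * f h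
    rw [integral_mul_const]
    simp only [mul_assoc]

end Main

/-- **T3.12 = `ConstTermC`**, from local compactness and cocompactness only. -/
theorem constTermC_of237 (hLC : InLocCompC K) (hLat : InLatticeC K) : ConstTermC K := by
  obtain ⟨⟨hA1, _, hA3⟩, hG1, _, hG3⟩ := hLC
  obtain ⟨_, _, hcoc⟩ := hLat
  intro μ hμ f hf hfc ψ hψ μ' hμ' D hD
  letI : MeasurableSpace (Adl K) := borel (Adl K)
  letI : MeasurableSpace (G K) := borel (G K)
  haveI : BorelSpace (Adl K) := ⟨rfl⟩
  haveI : BorelSpace (G K) := ⟨rfl⟩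
  exact constTerm_aux237 K hcoc μ f hf hfc ψ hψ μ' D hD

/-- **T3.12**, in the exact shape of the field `Leaves.constTerm` of `LT/T3/Spec.lean` v2. -/
theorem constTerm237 :
    InLocCompC K → InLatticeC K → InFundDomC K → HaarScaleC K → ConstTermC K :=
  fun hLC hLat _ _ => constTermC_of237 K hLC hLat

/-- **The input `HaarScaleC` of tower T3 (product formula, measure form)** follows from the
inputs `InLocCompC`, `InLatticeC`, `InFundDomC`: multiplication by `α ∈ Kˣ` preserves every Haar
measure of `𝔸_K`. -/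
theorem haarScaleC_of237 (hLC : InLocCompC K) (hLat : InLatticeC K) (hFD : InFundDomC K) :
    HaarScaleC K := by
  obtain ⟨⟨hA1, _, hA3⟩, _, _, _⟩ := hLC
  obtain ⟨_, _, hcoc⟩ := hLat
  intro ν hν α
  letI : MeasurableSpace (Adl K) := borel (Adl K)
  haveI : BorelSpace (Adl K) := ⟨rfl⟩
  obtain ⟨D, _, hD, _, _, _⟩ := hFD ν hν
  exact (measurePreserving_mulK237 K ν hcoc D hD α).map_eq

end Fermat.Agent.LT.T3.H237
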